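/-
S28 package M3 (helper55), part IV: the statement (B).

For a field `K` and `p ≥ 2` with `p ≠ 0` in `K`:  `j(q^p) ∉ K(j(q))`  inside `K((q))`.

Inputs (hypotheses): the modular polynomials (`HasModPolys`, package M1) and the four
`ℤ⟦q⟧`-identities of levels 2 and 3 (package M2), in the canonical shapes of the S28 skeleton.
-/
import Mathlib
import Fermat.Agent.S28.Defs
import Fermat.Agent.S28.Formal
import Fermat.Agent.S28.Integrality
import Fermat.Agent.S28.H24.ElimThree
import Fermat.Agent.S28.H55.Bridge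

set_option autoImplicit false

open Polynomial ModularCurve
open scoped IntermediateField

noncomputable section

namespace Fermat.Agent.S28.H55

/-! ### Level-2 elimination -/

/-- The coefficient of `h` in the linear relation obtained by eliminating between the two level-2
relations. -/
def elimD2 {R : Type*} [CommRing R] (j j2 : R) : R :=
  (720 - j) * ((768 - j2) * (720 - j) - 16773120) - (195840 + j2) * (48 * (720 - j) - (195840 + j2))

/-- The constant term in the linear relation obtained by eliminating between the two level-2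
relations. -/
def elimN2 {R : Type*} [CommRing R] (j j2 : R) : R :=
  16773120 * (48 * (720 - j) - (195840 + j2)) - (720 - j) * (4096 * (720 - j))

theorem map_elimD2 {R S : Type*} [CommRing R] [CommRing S] (f : R →+* S) (j j2 : R) :
    f (elimD2 j j2) = elimD2 (f j) (f j2) := by
  simp only [elimD2, map_add, map_sub, map_mul, map_ofNat]

theorem map_elimN2 {R S : Type*} [CommRing R] [CommRing S] (f : R →+* S) (j j2 : R) :
    f (elimN2 j j2) = elimN2 (f j) (f j2) := by
  simp only [elimN2, map_add, map_sub, map_mul, map_ofNat]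

/-- The elimination identity at level 2: a linear relation for `h` over `ℤ[j, j2]`. -/
theorem level_two_linear {R : Type*} [CommRing R] (j j2 h : R)
    (rel1 : j * h ^ 2 = (h + 256) ^ 3) (rel2 : j2 * h = (h + 16) ^ 3) :
    elimD2 j j2 * h = elimN2 j j2 := by
  unfold elimD2 elimN2
  linear_combination ((720 - j) * h + (48 * (720 - j) - (195840 + j2))) * rel1
    - ((720 - j) ^ 2 + (720 - j) * h + (48 * (720 - j) - (195840 + j2))) * rel2

/-- `h` lies in the field generated by `j` and `j2` as soon as `elimN2 j j2 ≠ 0`. -/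
theorem mem_adjoin_level_two {K L : Type*} [Field K] [Field L] [Algebra K L] (j j2 h : L)
    (rel1 : j * h ^ 2 = (h + 256) ^ 3) (rel2 : j2 * h = (h + 16) ^ 3)
    (hN : elimN2 j j2 ≠ 0) : h ∈ IntermediateField.adjoin K {j, j2} := by
  set F := IntermediateField.adjoin K {j, j2} with hF
  have hj : j ∈ F := IntermediateField.subset_adjoin K _ (by simp)
  have hj2 : j2 ∈ F := IntermediateField.subset_adjoin K _ (by simp)
  have hlin := level_two_linear j j2 h rel1 rel2
  have hD : elimD2 j j2 ≠ 0 := by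
    intro h0
    rw [h0, zero_mul] at hlin
    exact hN hlin.symm
  have hDmem : elimD2 j j2 ∈ F := by
    have := map_elimD2 (algebraMap F L) ⟨j, hj⟩ ⟨j2, hj2⟩
    rw [show (algebraMap F L) ⟨j, hj⟩ = j from rfl, show (algebraMap F L) ⟨j2, hj2⟩ = j2 from rfl]
      at this
    rw [← this]
    exact SetLike.coe_mem _
  have hNmem : elimN2 j j2 ∈ F := by
    have := map_elimN2 (algebraMap F L) ⟨j, hj⟩ ⟨j2, hj2⟩
    rw [show (algebraMap F L) ⟨j, hj⟩ = j from rfl, show (algebraMap F L) ⟨j2, hj2⟩ = j2 from rfl]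
      at this
    rw [← this]
    exact SetLike.coe_mem _
  have hh : h = elimN2 j j2 / elimD2 j j2 := by
    rw [eq_div_iff hD, mul_comm]
    exact hlin
  rw [hh]
  exact F.div_mem hNmem hDmem

/-- The power series `q ^ 2 * elimN2 (q⁻¹ u) (q⁻² u2)`. -/
def elimN2Tilde {K : Type*} [CommRing K] (u u2 : PowerSeries K) : PowerSeries K :=
  16773120 * (48 * (720 * PowerSeries.X ^ 2 - PowerSeries.X * u) -
    (195840 * PowerSeries.X ^ 2 + u2)) -
    (720 * PowerSeries.X - u) * (4096 * (720 * PowerSeries.X - u))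

theorem constantCoeff_elimN2Tilde {K : Type*} [CommRing K] (u u2 : PowerSeries K)
    (hu : PowerSeries.constantCoeff u = 1) (hu2 : PowerSeries.constantCoeff u2 = 1) :
    PowerSeries.constantCoeff (elimN2Tilde u u2) = -2 ^ 24 := by
  simp only [elimN2Tilde, map_add, map_sub, map_mul, map_pow, map_ofNat, hu, hu2,
    PowerSeries.constantCoeff_X, mul_one, ne_eq, OfNat.ofNat_ne_zero, not_false_eq_true, zero_pow,
    mul_zero, sub_zero, zero_sub, zero_add]
  norm_num

open HahnSeries in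
/-- In `K((q))` with `2 ≠ 0`: for `j = q⁻¹ u`, `j2 = q⁻² u2` with `u, u2 ∈ 1 + q K⟦q⟧`, the
element `elimN2 j j2` is nonzero (its lowest term is `-2 ^ 24 q⁻²`). -/
theorem elimN2_ne_zero {K : Type*} [Field K] (h2 : (2 : K) ≠ 0) (u u2 : PowerSeries K)
    (hu : PowerSeries.constantCoeff u = 1) (hu2 : PowerSeries.constantCoeff u2 = 1) :
    elimN2 (lead (-1) u) (lead (-2) u2) ≠ (0 : LaurentSeries K) := by
  set Q : LaurentSeries K := single (1 : ℤ) (1 : K) with hQdef
  have hQ : Q ≠ 0 := by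
    rw [hQdef]
    exact single_ne_zero one_ne_zero
  have hQi : (single (-1 : ℤ) (1 : K) : LaurentSeries K) = Q⁻¹ := by
    rw [eq_comm, inv_eq_iff_eq_inv]
    symm
    apply inv_eq_of_mul_eq_one_left
    rw [hQdef, single_mul_single]
    simp
  have hQi2 : (single (-2 : ℤ) (1 : K) : LaurentSeries K) = (Q⁻¹) ^ 2 := by
    rw [← hQi, single_pow]
    simp
  have hX : ofPowerSeries ℤ K (PowerSeries.X : PowerSeries K) = Q := by
    rw [hQdef]
    exact ofPowerSeries_X
  have key : Q ^ 2 * elimN2 (Q⁻¹ * ofPowerSeries ℤ K u) ((Q⁻¹) ^ 2 * ofPowerSeries ℤ K u2)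
      = ofPowerSeries ℤ K (elimN2Tilde u u2) := by
    simp only [elimN2Tilde, map_add, map_sub, map_mul, map_pow, map_ofNat, hX]
    unfold elimN2
    field_simp
  unfold lead
  rw [hQi, hQi2]
  intro h0
  rw [h0, mul_zero] at key
  have hinj : Function.Injective (ofPowerSeries ℤ K) := ofPowerSeries_injective
  have h1 : elimN2Tilde u u2 = 0 := by
    apply hinj
    rw [← key, map_zero]
  have h3 := constantCoeff_elimN2Tilde u u2 hu hu2
  rw [h1, map_zero] at h3
  have : (2 : K) ^ 24 = 0 := by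
    have h4 : (-(2 : K) ^ 24) = 0 := h3.symm
    simpa using h4
  exact h2 (pow_eq_zero_iff (by norm_num) |>.mp this)

/-- **M3b (level 2)**: for `j = q⁻¹ u`, `j2 = q⁻² u2` (`u, u2 ∈ 1 + q K⟦q⟧`) in `K((q))` with
`2 ≠ 0` in `K`, the two level-2 relations force `h ∈ K(j, j2)`. -/
theorem mem_adjoin_level_two_laurent {K : Type*} [Field K] (h2 : (2 : K) ≠ 0)
    (u u2 : PowerSeries K) (hu : PowerSeries.constantCoeff u = 1)
    (hu2 : PowerSeries.constantCoeff u2 = 1) (j j2 h : LaurentSeries K)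
    (hj : j = lead (-1) u) (hj2 : j2 = lead (-2) u2)
    (rel1 : j * h ^ 2 = (h + 256) ^ 3) (rel2 : j2 * h = (h + 16) ^ 3) :
    h ∈ IntermediateField.adjoin K {j, j2} := by
  refine mem_adjoin_level_two j j2 h rel1 rel2 ?_
  rw [hj, hj2]
  exact elimN2_ne_zero h2 u u2 hu hu2

/-! ### Rational + integral ⇒ polynomial -/

/-- If `j ∈ K((q))` is transcendental over `K`, `x ∈ K(j)` and `P(x, j) = 0` for a two-variable
polynomial `P` over `ℤ` that is monic in the first variable, then `x` is a polynomial in `j`. -/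
theorem exists_aeval_of_mem_adjoin_of_monic {K : Type*} [Field K] (j x : LaurentSeries K)
    (htr : Transcendental K j) (hx : x ∈ K⟮j⟯) (P : Polynomial (Polynomial ℤ)) (hP : P.Monic)
    (h : (evalY j P).eval x = 0) : ∃ R : K[X], x = aeval j R := by
  let e := RatFunc.algEquivOfTranscendental j htr
  let ι : RatFunc K →ₐ[K] LaurentSeries K := (IntermediateField.val K⟮j⟯).comp e.toAlgHom
  have hιX : ι RatFunc.X = j := RatFunc.algEquivOfTranscendental_X j htr
  have hιinj : Function.Injective ι := ι.toRingHom.injective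
  obtain ⟨ρ, hρ⟩ : ∃ ρ, ι ρ = x := ⟨e.symm ⟨x, hx⟩, by simp [ι]⟩
  have h0 : (evalY (RatFunc.X : RatFunc K) P).eval ρ = 0 := by
    apply hιinj
    rw [map_zero, ← h, ← hρ, ← hιX]
    exact (evalY_eval_map (ι : RatFunc K →+* LaurentSeries K) P ρ RatFunc.X).symm
  have hint : IsIntegral K[X] ρ := by
    let φ : Polynomial ℤ →+* K[X] := Polynomial.mapRingHom (Int.castRingHom K)
    refine ⟨P.map φ, hP.map φ, ?_⟩
    have hcomp : (algebraMap K[X] (RatFunc K)).comp φ =
        Polynomial.eval₂RingHom (Int.castRingHom (RatFunc K)) RatFunc.X := by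
      apply Polynomial.ringHom_ext
      · intro a
        simp [φ]
      · simp [φ]
    rw [Polynomial.eval₂_map, hcomp]
    simpa [evalY, Polynomial.eval_map] using h0
  obtain ⟨R, hR⟩ := IsIntegrallyClosed.isIntegral_iff.1 hint
  refine ⟨R, ?_⟩
  have hA : aeval (RatFunc.X : RatFunc K) R = algebraMap K[X] (RatFunc K) R := by
    rw [← RatFunc.algebraMap_X, aeval_algebraMap_apply, aeval_X_left_apply]
  rw [← hρ, ← hR, ← hA, ← aeval_algHom_apply, hιX]

/-! ### The statement (B) -/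

section Final

variable (K : Type*) [Field K]

theorem constantCoeff_red_jNum : PowerSeries.constantCoeff (red K jNum) = 1 := by
  rw [constantCoeff_red, constantCoeff_jNum, Int.cast_one]

theorem transcendental_jqModC : Transcendental K (jqModC K) := by
  rw [jqModC_eq_lead]
  exact transcendental_lead (by norm_num) _ (constantCoeff_red_jNum K)

theorem lead_ne_zero {a : ℤ} {g : PowerSeries K} (hg : PowerSeries.constantCoeff g = 1) :
    lead a g ≠ 0 := by
  intro h0
  have h1 := lead_coeff_self a g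
  rw [h0, hg] at h1
  simp at h1

theorem aeval_mem_adjoin_simple (h : LaurentSeries K) (B : K[X]) : aeval h B ∈ K⟮h⟯ :=
  IntermediateField.algebra_adjoin_le_adjoin K _ (Polynomial.aeval_mem_adjoin_singleton K h)

/-- **(B), polynomial form**: if `2 ≤ p`, `p ≠ 0` in `K`, then `j(q^p)` is not a polynomial
in `j(q)`. -/
theorem qExpand_jqModC_ne_aeval
    (l2a : eisenstein4 ^ 3 * deltaPS * vPS 2 deltaPS = (deltaPS + 256 * vPS 2 deltaPS) ^ 3)
    (l2b : (vPS 2 eisenstein4) ^ 3 * deltaPS * vPS 2 deltaPS = (deltaPS + 16 * vPS 2 deltaPS) ^ 3)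
    (l3a : deltaPS * vPS 3 deltaPS * (eisenstein4 ^ 3 - 756 * deltaPS - 19131876 * vPS 3 deltaPS) ^ 2 =
      (deltaPS ^ 2 + 196830 * deltaPS * vPS 3 deltaPS + 387420489 * vPS 3 deltaPS ^ 2) ^ 2)
    (l3b : deltaPS * vPS 3 deltaPS * ((vPS 3 eisenstein4) ^ 3 - 36 * deltaPS - 756 * vPS 3 deltaPS) ^ 2 =
      (deltaPS ^ 2 + 270 * deltaPS * vPS 3 deltaPS + 729 * vPS 3 deltaPS ^ 2) ^ 2)
    (p : ℕ) [NeZero p] (hp : 2 ≤ p) (hpK : (p : K) ≠ 0) (R : K[X]) :
    qExpand K p (jqModC K) ≠ aeval (jqModC K) R := by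
  intro hR
  set u : PowerSeries K := red K jNum with hu
  have hu0 : PowerSeries.constantCoeff u = 1 := constantCoeff_red_jNum K
  have hj : jqModC K = lead (-1) u := jqModC_eq_lead
  by_cases h2 : (2 : K) = 0
  · -- characteristic 2: level 3
    have h3 : (3 : K) ≠ 0 := by
      intro h3
      have : (1 : K) = 0 := by linear_combination h3 - h2
      exact one_ne_zero this
    obtain ⟨g, hg0, hg1, rel1, rel2⟩ := exists_level3 K l3a l3b
    have hh0 : lead (-1) g ≠ 0 := lead_ne_zero K hg0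
    refine hpK (natCast_eq_zero_of_hauptmodul p 3 3 hp (jqModC K) g
      ((X + C (27 : K)) * (X + C (243 : K)) ^ 3) R hg0 (hg1 h3) ?_ (by norm_num) ?_ rel1 ?_ ?_ hR)
    · rw [coeff_zero_eq_eval_zero]
      simp only [eval_mul, eval_pow, eval_add, eval_X, eval_C, zero_add]
      have e : (27 : K) * 243 ^ 3 = 3 ^ 18 := by norm_num
      rw [e]
      exact pow_ne_zero _ h3
    · have e : ((X + C (27 : K)) * (X + C (243 : K)) ^ 3).natDegree = 4 := by
        rw [natDegree_mul (X_add_C_ne_zero _) (pow_ne_zero _ (X_add_C_ne_zero _)), natDegree_pow,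
          natDegree_X_add_C, natDegree_X_add_C]
      rw [e]
      norm_num
    · have e : qExpand K 3 (jqModC K) =
          aeval (lead (-1) g) ((X + C (27 : K)) * (X + C (3 : K)) ^ 3) / lead (-1) g := by
        rw [eq_div_iff hh0]
        exact rel2
      rw [e]
      exact div_mem (aeval_mem_adjoin_simple K _ _) (IntermediateField.mem_adjoin_simple_self K _)
    · refine H24.mem_adjoin_level_three_laurent h3 u
        (PowerSeries.expand 3 (NeZero.ne 3) u) hu0 ?_ (jqModC K) (qExpand K 3 (jqModC K))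
        (lead (-1) g) rfl ?_ ?_ ?_
      · rw [PowerSeries.constantCoeff_expand, hu0]
      · rw [hj, qExpand_lead]
        rfl
      · rw [rel1]
        simp only [map_mul, map_pow, map_add, aeval_X, map_ofNat]
      · rw [rel2]
        simp only [map_mul, map_pow, map_add, aeval_X, map_ofNat]
  · -- level 2
    obtain ⟨g, hg0, hg1, rel1, rel2⟩ := exists_level2 K l2a l2b
    have hh0 : lead (-1) g ≠ 0 := lead_ne_zero K hg0
    refine hpK (natCast_eq_zero_of_hauptmodul p 2 2 hp (jqModC K) g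
      ((X + C (256 : K)) ^ 3) R hg0 (hg1 h2) ?_ (by norm_num) ?_ rel1 ?_ ?_ hR)
    · rw [coeff_zero_eq_eval_zero]
      simp only [eval_pow, eval_add, eval_X, eval_C, zero_add]
      have e : (256 : K) ^ 3 = 2 ^ 24 := by norm_num
      rw [e]
      exact pow_ne_zero _ h2
    · rw [natDegree_pow, natDegree_X_add_C]
      norm_num
    · have e : qExpand K 2 (jqModC K) =
          aeval (lead (-1) g) ((X + C (16 : K)) ^ 3) / lead (-1) g := by
        rw [eq_div_iff hh0]
        exact rel2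
      rw [e]
      exact div_mem (aeval_mem_adjoin_simple K _ _) (IntermediateField.mem_adjoin_simple_self K _)
    · refine mem_adjoin_level_two_laurent h2 u
        (PowerSeries.expand 2 (NeZero.ne 2) u) hu0 ?_ (jqModC K) (qExpand K 2 (jqModC K))
        (lead (-1) g) hj ?_ ?_ ?_
      · rw [PowerSeries.constantCoeff_expand, hu0]
      · rw [hj, qExpand_lead]
        rfl
      · rw [rel1]
        simp only [map_pow, map_add, aeval_X, map_ofNat]
      · rw [rel2]
        simp only [map_pow, map_add, aeval_X, map_ofNat]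

/-- **(B)**: if `2 ≤ p` and `p ≠ 0` in `K`, then `j(q^p) ∉ K(j(q))`. -/
theorem qExpand_jqModC_not_mem_adjoin (hmod : HasModPolys)
    (l2a : eisenstein4 ^ 3 * deltaPS * vPS 2 deltaPS = (deltaPS + 256 * vPS 2 deltaPS) ^ 3)
    (l2b : (vPS 2 eisenstein4) ^ 3 * deltaPS * vPS 2 deltaPS = (deltaPS + 16 * vPS 2 deltaPS) ^ 3)
    (l3a : deltaPS * vPS 3 deltaPS * (eisenstein4 ^ 3 - 756 * deltaPS - 19131876 * vPS 3 deltaPS) ^ 2 =
      (deltaPS ^ 2 + 196830 * deltaPS * vPS 3 deltaPS + 387420489 * vPS 3 deltaPS ^ 2) ^ 2)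
    (l3b : deltaPS * vPS 3 deltaPS * ((vPS 3 eisenstein4) ^ 3 - 36 * deltaPS - 756 * vPS 3 deltaPS) ^ 2 =
      (deltaPS ^ 2 + 270 * deltaPS * vPS 3 deltaPS + 729 * vPS 3 deltaPS ^ 2) ^ 2)
    (p : ℕ) [NeZero p] (hp : 2 ≤ p) (hpK : (p : K) ≠ 0) :
    qExpand K p (jqModC K) ∉ IntermediateField.adjoin K {jqModC K} := by
  intro hmem
  obtain ⟨P, hPm, hP⟩ := exists_monic_evalY_jS_of_dvd' K hmod (one_dvd p) (NeZero.ne p)
  have hjp : jS K 1 p = qExpand K p (jqModC K) := by
    rw [jS_one_eq_jqNModC]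
    rfl
  rw [jS_one_one, hjp] at hP
  obtain ⟨R, hR⟩ := exists_aeval_of_mem_adjoin_of_monic (jqModC K) _ (transcendental_jqModC K)
    hmem P hPm hP
  exact qExpand_jqModC_ne_aeval K l2a l2b l3a l3b p hp hpK R hR

/-- **(B)**, in the shape of the S28 skeleton (`jS_prime_not_mem_adjoin`). -/
theorem jS_prime_not_mem_adjoin_of (hmod : HasModPolys)
    (l2a : eisenstein4 ^ 3 * deltaPS * vPS 2 deltaPS = (deltaPS + 256 * vPS 2 deltaPS) ^ 3)
    (l2b : (vPS 2 eisenstein4) ^ 3 * deltaPS * vPS 2 deltaPS = (deltaPS + 16 * vPS 2 deltaPS) ^ 3)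
    (l3a : deltaPS * vPS 3 deltaPS * (eisenstein4 ^ 3 - 756 * deltaPS - 19131876 * vPS 3 deltaPS) ^ 2 =
      (deltaPS ^ 2 + 196830 * deltaPS * vPS 3 deltaPS + 387420489 * vPS 3 deltaPS ^ 2) ^ 2)
    (l3b : deltaPS * vPS 3 deltaPS * ((vPS 3 eisenstein4) ^ 3 - 36 * deltaPS - 756 * vPS 3 deltaPS) ^ 2 =
      (deltaPS ^ 2 + 270 * deltaPS * vPS 3 deltaPS + 729 * vPS 3 deltaPS ^ 2) ^ 2)
    (ℓ : ℕ) [Fact ℓ.Prime] [CharP K ℓ] (p : ℕ) (hp : p.Prime) (hpℓ : p ≠ ℓ) :
    jS K 1 p ∉ IntermediateField.adjoin K {jS K 1 1} := by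
  have : NeZero p := ⟨hp.ne_zero⟩
  have hjp : jS K 1 p = qExpand K p (jqModC K) := by
    rw [jS_one_eq_jqNModC]
    rfl
  rw [jS_one_one, hjp]
  refine qExpand_jqModC_not_mem_adjoin K hmod l2a l2b l3a l3b p hp.two_le ?_
  intro h0
  have hdvd : ℓ ∣ p := (CharP.cast_eq_zero_iff K ℓ p).1 h0
  exact hpℓ ((Nat.prime_dvd_prime_iff_eq (Fact.out : ℓ.Prime) hp).1 hdvd).symm

/-- **(B)**, in the shape consumed by `H8.forall_qExpand_not_mem_fullC` (hypothesis `hB`). -/
theorem forall_qExpand_not_mem_adjoin (hmod : HasModPolys)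
    (l2a : eisenstein4 ^ 3 * deltaPS * vPS 2 deltaPS = (deltaPS + 256 * vPS 2 deltaPS) ^ 3)
    (l2b : (vPS 2 eisenstein4) ^ 3 * deltaPS * vPS 2 deltaPS = (deltaPS + 16 * vPS 2 deltaPS) ^ 3)
    (l3a : deltaPS * vPS 3 deltaPS * (eisenstein4 ^ 3 - 756 * deltaPS - 19131876 * vPS 3 deltaPS) ^ 2 =
      (deltaPS ^ 2 + 196830 * deltaPS * vPS 3 deltaPS + 387420489 * vPS 3 deltaPS ^ 2) ^ 2)
    (l3b : deltaPS * vPS 3 deltaPS * ((vPS 3 eisenstein4) ^ 3 - 36 * deltaPS - 756 * vPS 3 deltaPS) ^ 2 =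
      (deltaPS ^ 2 + 270 * deltaPS * vPS 3 deltaPS + 729 * vPS 3 deltaPS ^ 2) ^ 2)
    (N : ℕ) (hN : (N : K) ≠ 0) :
    ∀ (p : ℕ) (hp : p.Prime), p ∣ N →
      @qExpand K _ p ⟨hp.ne_zero⟩ (jqModC K) ∉ IntermediateField.adjoin K {jqModC K} := by
  intro p hp hpN
  have : NeZero p := ⟨hp.ne_zero⟩
  refine qExpand_jqModC_not_mem_adjoin K hmod l2a l2b l3a l3b p hp.two_le ?_
  intro h0
  obtain ⟨m, rfl⟩ := hpN
  apply hN
  rw [Nat.cast_mul, h0, zero_mul]

end Final

end Fermat.Agent.S28.H55
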