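/-
S28 package M3 (helper55), part I: pure algebra.

* `exists_eq_C_mul_X_zpow`: a rational function `ρ ≠ 0` such that `A(ρ) / ρ ^ k` is a Laurent
  polynomial (`A` a polynomial with nonzero constant term, `1 ≤ k < deg A`) is a monomial `u X ^ n`.
* `pow_ne_expand`: for a power series `g = 1 + α q ^ m + ⋯`, `g ≠ 1`, and `p ≥ 2` invertible in the
  field, `g(q ^ p) ≠ g ^ p`.
-/
import Mathlib

set_option autoImplicit false

open Polynomial

namespace Fermat.Agent.S28.H55

section RatFuncMonomial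

variable {K : Type*} [Field K]

/-- A divisor of a power of `X` in `K[X]` is `C α * X ^ s` with `α ≠ 0`. -/
theorem eq_C_mul_X_pow_of_dvd_X_pow {P : K[X]} {m : ℕ} (h : P ∣ (X : K[X]) ^ m) :
    ∃ (α : K) (s : ℕ), α ≠ 0 ∧ P = C α * X ^ s := by
  obtain ⟨i, -, hi⟩ := (dvd_prime_pow (Polynomial.prime_X (R := K)) m).1 h
  obtain ⟨u, hu⟩ := hi.symm
  obtain ⟨α, hα, hαu⟩ := Polynomial.isUnit_iff.1 u.isUnit
  refine ⟨α, i, hα.ne_zero, ?_⟩
  rw [← hu, ← hαu, mul_comm]

theorem isCoprime_of_isUnit {R : Type*} [CommRing R] {x : R} (y : R) (h : IsUnit x) :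
    IsCoprime x y := by
  obtain ⟨u, rfl⟩ := h
  exact ⟨↑u⁻¹, 0, by simp⟩

/-- Homogenisation identity: `A(P/Q) * Q ^ d = ∑ aᵢ Pⁱ Q^(d-i)` in `RatFunc K`. -/
theorem aeval_div_mul_pow (A : K[X]) (P Q : K[X]) (hQ : Q ≠ 0) :
    aeval (algebraMap K[X] (RatFunc K) P / algebraMap K[X] (RatFunc K) Q) A *
        algebraMap K[X] (RatFunc K) Q ^ A.natDegree =
      algebraMap K[X] (RatFunc K)
        (∑ i ∈ Finset.range (A.natDegree + 1), C (A.coeff i) * P ^ i * Q ^ (A.natDegree - i)) := by
  have hQ' : algebraMap K[X] (RatFunc K) Q ≠ 0 := by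
    simpa using (map_ne_zero_iff _ (RatFunc.algebraMap_injective K)).2 hQ
  rw [aeval_eq_sum_range, Finset.sum_mul, map_sum]
  refine Finset.sum_congr rfl fun i hi => ?_
  have hi' : i ≤ A.natDegree := Nat.lt_succ_iff.1 (Finset.mem_range.1 hi)
  rw [map_mul, map_mul, map_pow, map_pow, div_pow, Algebra.smul_def]
  have h1 : algebraMap K (RatFunc K) (A.coeff i) = algebraMap K[X] (RatFunc K) (C (A.coeff i)) := by
    rw [IsScalarTower.algebraMap_apply K K[X] (RatFunc K)]; rfl
  rw [h1]
  have h2 : algebraMap K[X] (RatFunc K) Q ^ A.natDegree =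
      algebraMap K[X] (RatFunc K) Q ^ i * algebraMap K[X] (RatFunc K) Q ^ (A.natDegree - i) := by
    rw [← pow_add, Nat.add_sub_cancel' hi']
  rw [h2]
  field_simp

/-- **Monomial lemma.** Let `A` be a polynomial with nonzero constant term and `1 ≤ k < deg A`.
If `ρ ≠ 0` is a rational function such that `A(ρ) / ρ ^ k` is a Laurent polynomial
(i.e. `A(ρ) * X ^ m = L * ρ ^ k` for a polynomial `L`), then `ρ = u * X ^ n` for a nonzero constant
`u` and an integer `n`. -/
theorem exists_eq_C_mul_X_zpow (A : K[X]) (hA0 : A.coeff 0 ≠ 0) (k : ℕ) (hk : 1 ≤ k)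
    (hkd : k < A.natDegree) (ρ : RatFunc K) (m : ℕ) (L : K[X])
    (h : aeval ρ A * (RatFunc.X : RatFunc K) ^ m = algebraMap K[X] (RatFunc K) L * ρ ^ k) :
    ∃ (u : K) (n : ℤ), u ≠ 0 ∧ ρ = RatFunc.C u * (RatFunc.X : RatFunc K) ^ n := by
  set d := A.natDegree with hd
  set P := ρ.num with hP
  set Q := ρ.denom with hQ
  have hQ0 : Q ≠ 0 := RatFunc.denom_ne_zero ρ
  have hcop : IsCoprime P Q := RatFunc.isCoprime_num_denom ρ
  have hρeq : algebraMap K[X] (RatFunc K) P / algebraMap K[X] (RatFunc K) Q = ρ :=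
    RatFunc.num_div_denom ρ
  have hQ' : algebraMap K[X] (RatFunc K) Q ≠ 0 := by
    simpa using (map_ne_zero_iff _ (RatFunc.algebraMap_injective K)).2 hQ0
  set H : K[X] := ∑ i ∈ Finset.range (d + 1), C (A.coeff i) * P ^ i * Q ^ (d - i) with hH
  have hHeq : aeval ρ A * algebraMap K[X] (RatFunc K) Q ^ d = algebraMap K[X] (RatFunc K) H := by
    have := aeval_div_mul_pow A P Q hQ0
    rwa [hρeq] at this
  -- the polynomial identity `H * X ^ m = L * P ^ k * Q ^ (d - k)`
  have hpoly : H * X ^ m = L * P ^ k * Q ^ (d - k) := by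
    apply RatFunc.algebraMap_injective K
    have hX : algebraMap K[X] (RatFunc K) X = RatFunc.X := RatFunc.algebraMap_X
    rw [map_mul, map_mul, map_mul, map_pow, map_pow, map_pow, hX, ← hHeq]
    have h3 : algebraMap K[X] (RatFunc K) Q ^ d =
        algebraMap K[X] (RatFunc K) Q ^ k * algebraMap K[X] (RatFunc K) Q ^ (d - k) := by
      rw [← pow_add, Nat.add_sub_cancel' hkd.le]
    have h4 : ρ ^ k * algebraMap K[X] (RatFunc K) Q ^ k = algebraMap K[X] (RatFunc K) P ^ k := by
      rw [← mul_pow, ← hρeq, div_mul_cancel₀ _ hQ']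
    calc aeval ρ A * algebraMap K[X] (RatFunc K) Q ^ d * RatFunc.X ^ m
        = (aeval ρ A * RatFunc.X ^ m) * algebraMap K[X] (RatFunc K) Q ^ d := by ring
      _ = algebraMap K[X] (RatFunc K) L * ρ ^ k *
            (algebraMap K[X] (RatFunc K) Q ^ k * algebraMap K[X] (RatFunc K) Q ^ (d - k)) := by
          rw [h, h3]
      _ = algebraMap K[X] (RatFunc K) L * (ρ ^ k * algebraMap K[X] (RatFunc K) Q ^ k) *
            algebraMap K[X] (RatFunc K) Q ^ (d - k) := by ring
      _ = algebraMap K[X] (RatFunc K) L * algebraMap K[X] (RatFunc K) P ^ k *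
            algebraMap K[X] (RatFunc K) Q ^ (d - k) := by rw [h4]
  -- `H` is coprime to `P` and to `Q`
  have hd0 : 0 < d := lt_of_le_of_lt (Nat.zero_le _) hkd
  have hHP : IsCoprime H P := by
    have hsplit : H = C (A.coeff 0) * Q ^ d +
        P * ∑ i ∈ Finset.range d, C (A.coeff (i + 1)) * P ^ i * Q ^ (d - (i + 1)) := by
      rw [hH, Finset.sum_range_succ', Finset.mul_sum]
      simp only [pow_zero, mul_one, Nat.sub_zero]
      rw [add_comm]
      congr 1
      refine Finset.sum_congr rfl fun i _ => ?_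
      ring
    rw [hsplit]
    have h0 : IsCoprime (C (A.coeff 0) * Q ^ d) P := by
      refine IsCoprime.mul_left ?_ hcop.symm.pow_left
      exact isCoprime_of_isUnit _ ((Polynomial.isUnit_C).2 (isUnit_iff_ne_zero.2 hA0))
    exact h0.add_mul_left_left _
  have hlead : A.coeff d ≠ 0 := by
    rw [hd, Polynomial.coeff_natDegree]
    intro h0
    rw [Polynomial.leadingCoeff_eq_zero] at h0
    rw [h0] at hA0
    simp at hA0
  have hHQ : IsCoprime H Q := by
    have hsplit : H = C (A.coeff d) * P ^ d +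
        Q * ∑ i ∈ Finset.range d, C (A.coeff i) * P ^ i * Q ^ (d - i - 1) := by
      rw [hH, Finset.sum_range_succ, Finset.mul_sum]
      simp only [Nat.sub_self, pow_zero, mul_one]
      rw [add_comm]
      congr 1
      refine Finset.sum_congr rfl fun i hi => ?_
      have hi' : i < d := Finset.mem_range.1 hi
      have : d - i = (d - i - 1) + 1 := by omega
      rw [this, pow_succ]
      have : d - i - 1 + 1 - 1 = d - i - 1 := by omega
      rw [this]
      ring
    rw [hsplit]
    have h0 : IsCoprime (C (A.coeff d) * P ^ d) Q := by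
      refine IsCoprime.mul_left ?_ hcop.pow_left
      exact isCoprime_of_isUnit _ ((Polynomial.isUnit_C).2 (isUnit_iff_ne_zero.2 hlead))
    exact h0.add_mul_left_left _
  -- hence `P ∣ X ^ m` and `Q ∣ X ^ m`
  have hPdvd : P ∣ X ^ m := by
    have h1 : P ^ k ∣ H * X ^ m := ⟨L * Q ^ (d - k), by rw [hpoly]; ring⟩
    have h2 : P ^ k ∣ X ^ m := (hHP.symm.pow_left).dvd_of_dvd_mul_left h1
    exact (dvd_pow_self P (by omega)).trans h2
  have hQdvd : Q ∣ X ^ m := by
    have h1 : Q ^ (d - k) ∣ H * X ^ m := ⟨L * P ^ k, by rw [hpoly]; ring⟩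
    have h2 : Q ^ (d - k) ∣ X ^ m := (hHQ.symm.pow_left).dvd_of_dvd_mul_left h1
    exact (dvd_pow_self Q (by omega)).trans h2
  obtain ⟨α, s, hα, hPs⟩ := eq_C_mul_X_pow_of_dvd_X_pow hPdvd
  obtain ⟨β, t, hβ, hQt⟩ := eq_C_mul_X_pow_of_dvd_X_pow hQdvd
  refine ⟨α / β, (s : ℤ) - t, div_ne_zero hα hβ, ?_⟩
  have hXne : (RatFunc.X : RatFunc K) ≠ 0 := RatFunc.X_ne_zero
  have hβ' : (RatFunc.C β : RatFunc K) ≠ 0 := by
    simpa using (map_ne_zero_iff _ (RatFunc.C (K := K)).injective).2 hβ
  rw [← hρeq, hPs, hQt, map_mul, map_mul, map_pow, map_pow, RatFunc.algebraMap_X,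
    RatFunc.algebraMap_C, RatFunc.algebraMap_C, zpow_sub₀ hXne, zpow_natCast, zpow_natCast, map_div₀]
  field_simp

end RatFuncMonomial

section PowerSeriesPow

variable {K : Type*} [Field K]

theorem one_add_pow_eq {R : Type*} [CommRing R] (y : R) (n : ℕ) :
    ∃ r : R, (1 + y) ^ n = 1 + n * y + y ^ 2 * r := by
  induction n with
  | zero => exact ⟨0, by simp⟩
  | succ n ih =>
    obtain ⟨r, hr⟩ := ih
    refine ⟨n + r + r * y, ?_⟩
    rw [pow_succ, hr]
    push_cast
    ring

/-- **Frobenius-type lemma.** Let `g` be a power series over a field with constant coefficient `1`,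
`g ≠ 1`, and let `p ≥ 2` be nonzero in the field. If `g'` is the series `g(q ^ p)` (given through its
coefficients), then `g' ≠ g ^ p`. -/
theorem expand_ne_pow (p : ℕ) (hp : 2 ≤ p) (hpK : (p : K) ≠ 0) (g g' : PowerSeries K)
    (hg0 : PowerSeries.constantCoeff g = 1) (hg1 : g ≠ 1)
    (hg' : ∀ n, PowerSeries.coeff n g' = if p ∣ n then PowerSeries.coeff (n / p) g else 0) :
    g' ≠ g ^ p := by
  classical
  -- the least index `m ≥ 1` with nonzero coefficient
  have hex : ∃ n, 1 ≤ n ∧ PowerSeries.coeff n g ≠ 0 := by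
    by_contra hcon
    apply hg1
    ext n
    rcases Nat.eq_zero_or_pos n with rfl | hn
    · simpa using hg0
    · have : PowerSeries.coeff n g = 0 := by
        by_contra h0
        exact hcon ⟨n, hn, h0⟩
      rw [this, PowerSeries.coeff_one, if_neg (by omega)]
  set m := Nat.find hex with hm
  obtain ⟨hm1, hmα⟩ := Nat.find_spec hex
  have hmin : ∀ i, 1 ≤ i → i < m → PowerSeries.coeff i g = 0 := by
    intro i hi him
    by_contra h0
    exact Nat.find_min hex him ⟨hi, h0⟩
  -- `g = 1 + X ^ m * w`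
  have hdvd : (PowerSeries.X : PowerSeries K) ^ m ∣ g - 1 := by
    rw [PowerSeries.X_pow_dvd_iff]
    intro i hi
    rw [map_sub, PowerSeries.coeff_one]
    rcases Nat.eq_zero_or_pos i with rfl | hi0
    · simp [hg0]
    · rw [hmin i hi0 hi, if_neg (by omega), sub_zero]
  obtain ⟨w, hw⟩ := hdvd
  have hg : g = 1 + PowerSeries.X ^ m * w := by rw [← hw]; ring
  have hwα : PowerSeries.constantCoeff w = PowerSeries.coeff m g := by
    rw [hg, map_add, PowerSeries.coeff_one, if_neg (by omega), zero_add,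
      PowerSeries.coeff_X_pow_mul', if_pos le_rfl, Nat.sub_self,
      PowerSeries.coeff_zero_eq_constantCoeff]
  obtain ⟨r, hr⟩ := one_add_pow_eq (PowerSeries.X ^ m * w) p
  intro heq
  have h1 : PowerSeries.coeff m g' = 0 := by
    rw [hg']
    split_ifs with hpm
    · obtain ⟨c, hc⟩ := hpm
      have hc0 : 1 ≤ c := by
        rcases Nat.eq_zero_or_pos c with rfl | h
        · omega
        · exact h
      have hcm : c < m := by
        rw [hc]
        nlinarith
      rw [hc, Nat.mul_div_cancel_left c (by omega)]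
      exact hmin c hc0 hcm
    · rfl
  have hcp : PowerSeries.constantCoeff (p : PowerSeries K) = (p : K) := by
    rw [← map_natCast (PowerSeries.C (R := K)) p]
    exact PowerSeries.constantCoeff_C _
  have h2 : PowerSeries.coeff m (g ^ p) = (p : K) * PowerSeries.constantCoeff w := by
    rw [hg, hr, map_add, map_add, PowerSeries.coeff_one, if_neg (by omega), zero_add]
    have e1 : (p : PowerSeries K) * (PowerSeries.X ^ m * w) =
        PowerSeries.X ^ m * ((p : PowerSeries K) * w) := by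
      ring
    have e2 : (PowerSeries.X ^ m * w) ^ 2 * r = PowerSeries.X ^ (2 * m) * (w ^ 2 * r) := by
      ring
    rw [e1, e2, PowerSeries.coeff_X_pow_mul', if_pos le_rfl, Nat.sub_self,
      PowerSeries.coeff_X_pow_mul', if_neg (by omega), add_zero,
      PowerSeries.coeff_zero_eq_constantCoeff, map_mul, hcp]
  rw [hwα] at h2
  rw [heq, h2] at h1
  exact hmα ((mul_eq_zero.1 h1).resolve_left hpK)

end PowerSeriesPow

end Fermat.Agent.S28.H55
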