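/-
S28 package M3 (helper55), part II: the abstract crux.

Let `h = q⁻¹ (1 + ⋯)` be a "Hauptmodul" in `K((q))` and `j` a Laurent series with
`j * h ^ s = A(h)` (`A` a polynomial with `A(0) ≠ 0`, `1 ≤ s < deg A`), such that
`h ∈ K(j, j(q^r))` and `j(q^r) ∈ K(h)`.  If `j(q^p)` is a POLYNOMIAL in `j`, then `p = 0` in `K`.
-/
import Mathlib
import Fermat.Prelude.Def_ModularCurve_X0
import Fermat.Prelude.Def_ModularCurve_LaurentCoeff
import Fermat.Agent.S28.H55.Monomial

set_option autoImplicit false

open Polynomial ModularCurve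
open scoped IntermediateField

noncomputable section

namespace Fermat.Agent.S28.H55

variable {K : Type*} [Field K]

/-- The Laurent series `q ^ a * f`, for a power series `f`. -/
def lead (a : ℤ) (f : PowerSeries K) : LaurentSeries K :=
  HahnSeries.single a 1 * HahnSeries.ofPowerSeries ℤ K f

theorem lead_coeff (a : ℤ) (f : PowerSeries K) (m : ℤ) :
    (lead a f).coeff m = (HahnSeries.ofPowerSeries ℤ K f).coeff (m - a) := by
  rw [lead, HahnSeries.coeff_single_mul, one_mul]

theorem lead_coeff_self (a : ℤ) (f : PowerSeries K) :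
    (lead a f).coeff a = PowerSeries.constantCoeff f := by
  rw [lead_coeff, sub_self, show (0 : ℤ) = ((0 : ℕ) : ℤ) from rfl,
    HahnSeries.ofPowerSeries_apply_coeff, PowerSeries.coeff_zero_eq_constantCoeff]

theorem lead_coeff_of_lt (a : ℤ) (f : PowerSeries K) {m : ℤ} (hm : m < a) :
    (lead a f).coeff m = 0 := by
  rw [lead_coeff]
  exact ofPowerSeries_coeff_of_neg _ (by omega)

theorem lead_mul (a b : ℤ) (f g : PowerSeries K) : lead a f * lead b g = lead (a + b) (f * g) := by
  have h1 : (HahnSeries.single (a + b) (1 : K) : LaurentSeries K) =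
      HahnSeries.single a 1 * HahnSeries.single b 1 := by
    rw [HahnSeries.single_mul_single, one_mul]
  unfold lead
  rw [map_mul, h1]
  ring

theorem lead_pow (a : ℤ) (f : PowerSeries K) (n : ℕ) :
    lead a f ^ n = lead ((n : ℤ) * a) (f ^ n) := by
  unfold lead
  rw [mul_pow, HahnSeries.single_pow, one_pow, map_pow, nsmul_eq_mul]

theorem lead_injective (a : ℤ) {f g : PowerSeries K} (h : lead a f = lead a g) : f = g := by
  have h0 : (HahnSeries.single a (1 : K) : LaurentSeries K) ≠ 0 := by
    intro h0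
    have := congrArg (fun x : LaurentSeries K => x.coeff a) h0
    simp at this
  unfold lead at h
  exact HahnSeries.ofPowerSeries_injective (mul_left_cancel₀ h0 h)

theorem qExpand_ofPowerSeries (N : ℕ) [NeZero N] (f : PowerSeries K) :
    qExpand K N (HahnSeries.ofPowerSeries ℤ K f) =
      HahnSeries.ofPowerSeries ℤ K (PowerSeries.expand N (NeZero.ne N) f) := by
  ext k
  by_cases hk : (N : ℤ) ∣ k
  · obtain ⟨m, rfl⟩ := hk
    rw [qExpand_coeff_mul]
    rcases lt_or_ge m 0 with hm | hm
    · rw [ofPowerSeries_coeff_of_neg _ hm, ofPowerSeries_coeff_of_neg _ (by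
        have : (0 : ℤ) < N := by exact_mod_cast Nat.pos_of_ne_zero (NeZero.ne N)
        nlinarith)]
    · lift m to ℕ using hm
      rw [HahnSeries.ofPowerSeries_apply_coeff, show (N : ℤ) * (m : ℤ) = ((N * m : ℕ) : ℤ) by
        push_cast; ring, HahnSeries.ofPowerSeries_apply_coeff, PowerSeries.coeff_expand,
        if_pos (dvd_mul_right N m), Nat.mul_div_cancel_left m (Nat.pos_of_ne_zero (NeZero.ne N))]
  · rw [qExpand_coeff_of_not_dvd N _ hk]
    rcases lt_or_ge k 0 with hk0 | hk0
    · rw [ofPowerSeries_coeff_of_neg _ hk0]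
    · lift k to ℕ using hk0
      rw [HahnSeries.ofPowerSeries_apply_coeff, PowerSeries.coeff_expand, if_neg]
      intro hdvd
      exact hk (by exact_mod_cast hdvd)

theorem qExpand_lead (N : ℕ) [NeZero N] (a : ℤ) (f : PowerSeries K) :
    qExpand K N (lead a f) = lead ((N : ℤ) * a) (PowerSeries.expand N (NeZero.ne N) f) := by
  unfold lead
  rw [map_mul, qExpand_single, qExpand_ofPowerSeries]

theorem algebraMap_mul_coeff (u : K) (x : LaurentSeries K) (m : ℤ) :
    (algebraMap K (LaurentSeries K) u * x).coeff m = u * x.coeff m := by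
  rw [algebraMap_laurentSeries_eq_single, HahnSeries.coeff_single_mul, sub_zero]

/-- A Laurent series with a pole and leading coefficient `1` is transcendental over the constants. -/
theorem transcendental_lead {a : ℤ} (ha : a < 0) (f : PowerSeries K)
    (hf : PowerSeries.constantCoeff f = 1) : Transcendental K (lead a f) := by
  rintro ⟨P, hP0, hP⟩
  have hcoef := congrArg (fun x : LaurentSeries K => x.coeff ((P.natDegree : ℤ) * a)) hP
  simp only [HahnSeries.coeff_zero] at hcoef
  rw [aeval_eq_sum_range, HahnSeries.coeff_sum] at hcoef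
  simp only [Algebra.smul_def] at hcoef
  have hterm : ∀ i ∈ Finset.range (P.natDegree + 1),
      (algebraMap K (LaurentSeries K) (P.coeff i) * lead a f ^ i).coeff ((P.natDegree : ℤ) * a) =
        if i = P.natDegree then P.coeff P.natDegree else 0 := by
    intro i hi
    have hi' : i ≤ P.natDegree := Nat.lt_succ_iff.1 (Finset.mem_range.1 hi)
    rw [algebraMap_mul_coeff, lead_pow]
    split_ifs with hid
    · rw [hid, lead_coeff_self, map_pow, hf, one_pow, mul_one]
    · have hlt : i < P.natDegree := lt_of_le_of_ne hi' hid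
      rw [lead_coeff_of_lt, mul_zero]
      have : ((i : ℤ)) < (P.natDegree : ℤ) := by exact_mod_cast hlt
      nlinarith
  rw [Finset.sum_congr rfl hterm, Finset.sum_ite_eq' (Finset.range (P.natDegree + 1)) P.natDegree,
    if_pos (Finset.mem_range.2 (Nat.lt_succ_self _))] at hcoef
  exact hP0 (Polynomial.leadingCoeff_eq_zero.1 (by rw [← hcoef, Polynomial.coeff_natDegree]))

variable (K) in
/-- `q ↦ q ^ N` as an algebra endomorphism of `K((q))`. -/
def qExpandA (N : ℕ) [NeZero N] : LaurentSeries K →ₐ[K] LaurentSeries K where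
  __ := qExpand K N
  commutes' c := by
    show qExpand K N (algebraMap K (LaurentSeries K) c) = algebraMap K (LaurentSeries K) c
    rw [algebraMap_laurentSeries_eq_single, qExpand_single, mul_zero]

@[simp]
theorem qExpandA_apply (N : ℕ) [NeZero N] (x : LaurentSeries K) : qExpandA K N x = qExpand K N x :=
  rfl

/-- `aeval a R * X ^ (s * deg R)` is a polynomial when `a = A(X) / X ^ s`. -/
theorem exists_laurent (A R : K[X]) (s : ℕ) :
    ∃ L : K[X], aeval (aeval (RatFunc.X : RatFunc K) A / RatFunc.X ^ s) R *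
        (RatFunc.X : RatFunc K) ^ (s * R.natDegree) = algebraMap K[X] (RatFunc K) L := by
  have hA : aeval (RatFunc.X : RatFunc K) A = algebraMap K[X] (RatFunc K) A := by
    rw [← RatFunc.algebraMap_X, aeval_algebraMap_apply, aeval_X_left_apply]
  have hX : (RatFunc.X : RatFunc K) ≠ 0 := RatFunc.X_ne_zero
  refine ⟨∑ i ∈ Finset.range (R.natDegree + 1),
    C (R.coeff i) * A ^ i * X ^ (s * (R.natDegree - i)), ?_⟩
  rw [aeval_eq_sum_range, Finset.sum_mul, map_sum]
  refine Finset.sum_congr rfl fun i hi => ?_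
  have hi' : i ≤ R.natDegree := Nat.lt_succ_iff.1 (Finset.mem_range.1 hi)
  have h1 : algebraMap K (RatFunc K) (R.coeff i) = algebraMap K[X] (RatFunc K) (C (R.coeff i)) := by
    rw [IsScalarTower.algebraMap_apply K K[X] (RatFunc K)]; rfl
  have h2 : (RatFunc.X : RatFunc K) ^ (s * R.natDegree) =
      (RatFunc.X ^ s) ^ i * RatFunc.X ^ (s * (R.natDegree - i)) := by
    rw [← pow_mul, ← pow_add, ← Nat.mul_add, Nat.add_sub_cancel' hi']
  rw [Algebra.smul_def, h1, hA, map_mul, map_mul, map_pow, map_pow, RatFunc.algebraMap_X, div_pow,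
    h2]
  field_simp

/-- **Abstract crux of S28.**  Let `h = q⁻¹ g` with `g ∈ 1 + q K⟦q⟧`, `g ≠ 1`, and let `j` be a
Laurent series with `j * h ^ s = A(h)` where `A(0) ≠ 0` and `1 ≤ s < deg A`.  Assume
`j(q ^ r) ∈ K(h)` and `h ∈ K(j, j(q ^ r))`.  If `j(q ^ p) = R(j)` for a polynomial `R` and `p ≥ 2`,
then `p = 0` in `K`. -/
theorem natCast_eq_zero_of_hauptmodul (p r s : ℕ) [NeZero p] [NeZero r] (hp : 2 ≤ p)
    (j : LaurentSeries K) (g : PowerSeries K) (A R : K[X])
    (hg0 : PowerSeries.constantCoeff g = 1) (hg1 : g ≠ 1)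
    (hA0 : A.coeff 0 ≠ 0) (hs1 : 1 ≤ s) (hsA : s < A.natDegree)
    (rel1 : j * lead (-1) g ^ s = aeval (lead (-1) g) A)
    (hj₂ : qExpand K r j ∈ IntermediateField.adjoin K {lead (-1) g})
    (hgen : lead (-1) g ∈ IntermediateField.adjoin K {j, qExpand K r j})
    (hR : qExpand K p j = aeval j R) : (p : K) = 0 := by
  by_contra hpK
  set h : LaurentSeries K := lead (-1) g with hh
  have htr : Transcendental K h := transcendental_lead (by norm_num) g hg0
  have hh0 : h ≠ 0 := by
    intro h0
    have h1 := lead_coeff_self (-1) g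
    rw [← hh, h0, hg0] at h1
    simp at h1
  -- the embedding `K(X) → K((q))`, `X ↦ h`
  let e := RatFunc.algEquivOfTranscendental h htr
  let ι : RatFunc K →ₐ[K] LaurentSeries K := (IntermediateField.val K⟮h⟯).comp e.toAlgHom
  have hιX : ι RatFunc.X = h := RatFunc.algEquivOfTranscendental_X h htr
  have hιinj : Function.Injective ι := ι.toRingHom.injective
  have hιmem : ∀ x : LaurentSeries K, x ∈ K⟮h⟯ → ∃ ρ, ι ρ = x := fun x hx =>
    ⟨e.symm ⟨x, hx⟩, by simp [ι]⟩
  have hιrange : ∀ ρ, ι ρ ∈ K⟮h⟯ := fun ρ => (e ρ).2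
  set a : RatFunc K := aeval (RatFunc.X : RatFunc K) A / RatFunc.X ^ s with ha
  have hιa : ι a = j := by
    rw [ha, map_div₀, map_pow, hιX, ← aeval_algHom_apply, hιX, div_eq_iff (pow_ne_zero _ hh0)]
    exact rel1.symm
  -- the substitutions `q ↦ q ^ p`, `q ↦ q ^ r`
  have hψj : qExpand K p j ∈ K⟮h⟯ := by
    rw [hR, ← hιa, aeval_algHom_apply]
    exact hιrange _
  have hψj₂ : qExpand K p (qExpand K r j) ∈ K⟮h⟯ := by
    have hcomm : qExpand K p (qExpand K r j) = qExpand K r (qExpand K p j) := by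
      rw [qExpand_qExpand, qExpand_qExpand]
      exact qExpand_congr (mul_comm p r) j
    obtain ⟨b, hb⟩ := hιmem _ hj₂
    have h1 : qExpand K r (aeval j R) = aeval (qExpand K r j) R :=
      (aeval_algHom_apply (qExpandA K r) j R).symm
    rw [hcomm, hR, h1, ← hb, aeval_algHom_apply]
    exact hιrange _
  have hψh : qExpand K p h ∈ K⟮h⟯ := by
    have h1 : qExpandA K p h ∈
        (IntermediateField.adjoin K {j, qExpand K r j}).map (qExpandA K p) :=
      (IntermediateField.mem_map _).2 ⟨h, hgen, rfl⟩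
    rw [IntermediateField.adjoin_map] at h1
    refine (IntermediateField.adjoin_le_iff.2 ?_) h1
    rintro _ ⟨y, hy, rfl⟩
    rcases hy with rfl | hy
    · exact hψj
    · rw [Set.mem_singleton_iff.1 hy]
      exact hψj₂
  obtain ⟨ρ, hρ⟩ := hιmem _ hψh
  -- the functional equation `R(a) * ρ ^ s = A(ρ)`
  have hrel : aeval a R * ρ ^ s = aeval ρ A := by
    apply hιinj
    rw [map_mul, map_pow, hρ, ← aeval_algHom_apply, ← aeval_algHom_apply, hιa, hρ, ← hR]
    have h1 := congrArg (qExpandA K p) rel1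
    rw [map_mul, map_pow, ← aeval_algHom_apply] at h1
    exact h1
  obtain ⟨L, hL⟩ := exists_laurent A R s
  obtain ⟨u, n, hu, hρeq⟩ := exists_eq_C_mul_X_zpow A hA0 s hs1 hsA ρ (s * R.natDegree) L (by
    rw [← hrel, ← hL]; ring)
  -- hence `h(q ^ p) = u * h ^ n`
  have hψh' : qExpand K p h = algebraMap K (LaurentSeries K) u * h ^ n := by
    rw [← hρ, hρeq, map_mul, map_zpow₀, hιX]
    congr 1
    have : (RatFunc.C u : RatFunc K) = algebraMap K (RatFunc K) u := rfl
    rw [this, AlgHom.commutes]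
  -- the expansion of `h(q ^ p)`
  set g' : PowerSeries K := PowerSeries.expand p (NeZero.ne p) g with hg'
  have hg'0 : PowerSeries.constantCoeff g' = 1 := by
    rw [← PowerSeries.coeff_zero_eq_constantCoeff, hg', PowerSeries.coeff_expand,
      if_pos (dvd_zero p), Nat.zero_div, PowerSeries.coeff_zero_eq_constantCoeff, hg0]
  have hψlead : qExpand K p h = lead (-(p : ℤ)) g' := by
    rw [hh, qExpand_lead, mul_neg_one]
  rw [hψlead] at hψh'
  rcases n with N | N
  · -- `n = N ≥ 0`
    rw [Int.ofNat_eq_natCast, zpow_natCast, hh, lead_pow, mul_neg_one] at hψh'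
    have hcoeff : ∀ m : ℤ, (lead (-(p : ℤ)) g').coeff m = u * (lead (-(N : ℤ)) (g ^ N)).coeff m :=
      fun m => by rw [hψh', algebraMap_mul_coeff]
    have hgN : PowerSeries.constantCoeff (g ^ N) = 1 := by rw [map_pow, hg0, one_pow]
    rcases lt_trichotomy N p with hNp | hNp | hNp
    · have h1 := hcoeff (-(p : ℤ))
      rw [lead_coeff_self, hg'0, lead_coeff_of_lt _ _ (by
        have : (N : ℤ) < p := by exact_mod_cast hNp
        omega), mul_zero] at h1
      exact one_ne_zero h1
    · subst hNp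
      have h1 := hcoeff (-(N : ℤ))
      rw [lead_coeff_self, hg'0, lead_coeff_self, hgN, mul_one] at h1
      rw [← h1, map_one, one_mul] at hψh'
      have h2 : g' = g ^ N := lead_injective _ hψh'
      exact expand_ne_pow N hp hpK g g' hg0 hg1
        (fun n => PowerSeries.coeff_expand N (NeZero.ne N) g) h2
    · have h1 := hcoeff (-(N : ℤ))
      rw [lead_coeff_self, hgN, mul_one, lead_coeff_of_lt _ _ (by
        have : (p : ℤ) < N := by exact_mod_cast hNp
        omega)] at h1
      exact hu h1.symm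
  · -- `n = -(N + 1) < 0`
    rw [zpow_negSucc] at hψh'
    have hne : h ^ (N + 1) ≠ 0 := pow_ne_zero _ hh0
    have h1 : lead (-(p : ℤ)) g' * h ^ (N + 1) = algebraMap K (LaurentSeries K) u := by
      rw [hψh', mul_assoc, inv_mul_cancel₀ hne, mul_one]
    rw [hh, lead_pow, lead_mul] at h1
    have h2 : (lead (-(p : ℤ) + ((N + 1 : ℕ) : ℤ) * -1) (g' * g ^ (N + 1))).coeff
        (-(p : ℤ) + ((N + 1 : ℕ) : ℤ) * -1) =
        (algebraMap K (LaurentSeries K) u).coeff (-(p : ℤ) + ((N + 1 : ℕ) : ℤ) * -1) := by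
      rw [h1]
    rw [lead_coeff_self, map_mul, hg'0, map_pow, hg0, one_pow, one_mul,
      algebraMap_laurentSeries_eq_single, HahnSeries.coeff_single_of_ne (by
        have : (0 : ℤ) < p := by exact_mod_cast Nat.pos_of_ne_zero (NeZero.ne p)
        push_cast
        omega)] at h2
    exact one_ne_zero h2

end Fermat.Agent.S28.H55
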