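/-
S28 package M3 (helper55), part III: the bridge from the `ℤ⟦q⟧`-identities of package M2
(levels 2 and 3, taken here as hypotheses in the canonical shapes of the S28 skeleton) to the
Hauptmodul relations in `K((q))` consumed by `natCast_eq_zero_of_hauptmodul`.
-/
import Mathlib
import Fermat.Agent.S28.Defs
import Fermat.Agent.S28.H55.Crux

set_option autoImplicit false

open Polynomial ModularCurve

noncomputable section

namespace Fermat.Agent.S28.H55

variable {K : Type*} [Field K]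

/-! ### More API for `lead` -/

theorem lead_add (a : ℤ) (f g : PowerSeries K) : lead a (f + g) = lead a f + lead a g := by
  unfold lead
  rw [map_add, mul_add]

theorem lead_neg_one_C_mul_X (c : K) :
    lead (-1) (PowerSeries.C c * PowerSeries.X) = algebraMap K (LaurentSeries K) c := by
  unfold lead
  rw [map_mul, HahnSeries.ofPowerSeries_C, HahnSeries.ofPowerSeries_X,
    algebraMap_laurentSeries_eq_single, HahnSeries.C_apply, mul_left_comm,
    HahnSeries.single_mul_single, HahnSeries.single_mul_single]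
  norm_num

theorem jqModC_eq_lead : jqModC K = lead (-1) (PowerSeries.map (Int.castRingHom K) jNum) := rfl

/-! ### The series over `K` -/

variable (K) in
/-- The reduction map `ℤ⟦q⟧ → K⟦q⟧`. -/
abbrev red : PowerSeries ℤ →+* PowerSeries K := PowerSeries.map (Int.castRingHom K)

theorem constantCoeff_red (f : PowerSeries ℤ) :
    PowerSeries.constantCoeff (red K f) = ((PowerSeries.constantCoeff f : ℤ) : K) := by
  rw [← PowerSeries.coeff_zero_eq_constantCoeff, PowerSeries.coeff_map,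
    PowerSeries.coeff_zero_eq_constantCoeff]
  rfl

theorem red_vPS (d : ℕ) [NeZero d] (f : PowerSeries ℤ) :
    red K (vPS d f) = PowerSeries.expand d (NeZero.ne d) (red K f) :=
  PowerSeries.map_expand d (NeZero.ne d) _ f

theorem red_jNum_mul : red K jNum * red K dedekindEtaUnit = red K eisenstein4 ^ 3 := by
  rw [← map_mul, ← map_pow, jNum, mul_assoc, mul_comm dedekindEtaUnitInv, dedekindEtaUnit_mul_inv,
    mul_one]

theorem vPS_deltaPS (d : ℕ) [NeZero d] :
    vPS d deltaPS = PowerSeries.X ^ d * vPS d dedekindEtaUnit := by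
  unfold vPS deltaPS
  rw [map_mul, PowerSeries.expand_X]

theorem constantCoeff_red_eta : PowerSeries.constantCoeff (red K dedekindEtaUnit) = 1 := by
  rw [constantCoeff_red, constantCoeff_dedekindEtaUnit, Int.cast_one]

theorem constantCoeff_expand_red_eta (d : ℕ) [NeZero d] :
    PowerSeries.constantCoeff (PowerSeries.expand d (NeZero.ne d) (red K dedekindEtaUnit)) = 1 := by
  rw [PowerSeries.constantCoeff_expand, constantCoeff_red_eta]

/-! ### Level 2 -/

section Level2

variable (K)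

/-- Level 2, power series form: with `g = η²⁴(q) / η²⁴(q²)` one has
`J g² = (g + 256 q)³` and `J(q²) g = (g + 16 q)³`, where `j = q⁻¹ J`. -/
theorem exists_level2_ps
    (ha : eisenstein4 ^ 3 * deltaPS * vPS 2 deltaPS = (deltaPS + 256 * vPS 2 deltaPS) ^ 3)
    (hb : (vPS 2 eisenstein4) ^ 3 * deltaPS * vPS 2 deltaPS = (deltaPS + 16 * vPS 2 deltaPS) ^ 3) :
    ∃ g : PowerSeries K, PowerSeries.constantCoeff g = 1 ∧
      red K jNum * g ^ 2 = (g + 256 * PowerSeries.X) ^ 3 ∧
      PowerSeries.expand 2 (NeZero.ne 2) (red K jNum) * g = (g + 16 * PowerSeries.X) ^ 3 := by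
  have hX : (PowerSeries.X : PowerSeries ℤ) ^ 3 ≠ 0 := pow_ne_zero 3 PowerSeries.X_ne_zero
  -- cancel `q³` over `ℤ`
  have ha' : eisenstein4 ^ 3 * dedekindEtaUnit * vPS 2 dedekindEtaUnit =
      (dedekindEtaUnit + 256 * PowerSeries.X * vPS 2 dedekindEtaUnit) ^ 3 := by
    apply mul_left_cancel₀ hX
    rw [vPS_deltaPS 2, deltaPS] at ha
    linear_combination ha
  have hb' : (vPS 2 eisenstein4) ^ 3 * dedekindEtaUnit * vPS 2 dedekindEtaUnit =
      (dedekindEtaUnit + 16 * PowerSeries.X * vPS 2 dedekindEtaUnit) ^ 3 := by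
    apply mul_left_cancel₀ hX
    rw [vPS_deltaPS 2, deltaPS] at hb
    linear_combination hb
  -- reduce to `K`
  set η : PowerSeries K := red K dedekindEtaUnit with hη
  set η₂ : PowerSeries K := PowerSeries.expand 2 (NeZero.ne 2) η with hη₂
  set e4 : PowerSeries K := red K eisenstein4 with he4
  set jn : PowerSeries K := red K jNum with hjn
  have hA : e4 ^ 3 * η * η₂ = (η + 256 * PowerSeries.X * η₂) ^ 3 := by
    have h := congrArg (red K) ha'
    simp only [map_mul, map_pow, map_add, red_vPS, PowerSeries.map_X, map_ofNat] at h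
    exact h
  have hB : (PowerSeries.expand 2 (NeZero.ne 2) e4) ^ 3 * η * η₂ =
      (η + 16 * PowerSeries.X * η₂) ^ 3 := by
    have h := congrArg (red K) hb'
    simp only [map_mul, map_pow, map_add, red_vPS, PowerSeries.map_X, map_ofNat] at h
    exact h
  have hJ : jn * η = e4 ^ 3 := red_jNum_mul
  have hJ2 : PowerSeries.expand 2 (NeZero.ne 2) jn * η₂ = (PowerSeries.expand 2 (NeZero.ne 2) e4) ^ 3 := by
    rw [hη₂, ← map_mul, hJ, map_pow]
  have hη₂0 : PowerSeries.constantCoeff η₂ ≠ 0 := by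
    rw [hη₂, hη, constantCoeff_expand_red_eta]; exact one_ne_zero
  have hη₂ne : η₂ ≠ 0 := by
    intro h0; rw [h0] at hη₂0; simp at hη₂0
  refine ⟨η * η₂⁻¹, ?_, ?_, ?_⟩
  · rw [map_mul, PowerSeries.constantCoeff_inv, hη₂, hη, constantCoeff_expand_red_eta,
      constantCoeff_red_eta, inv_one, mul_one]
  all_goals
    have hg : η * η₂⁻¹ * η₂ = η := by
      rw [mul_assoc, PowerSeries.inv_mul_cancel _ hη₂0, mul_one]
    generalize η * η₂⁻¹ = g at hg ⊢
    apply mul_right_cancel₀ (pow_ne_zero 3 hη₂ne)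
    rw [← hg] at hA hB hJ
  · linear_combination hA + (g * η₂ ^ 2) * hJ
  · linear_combination hB + (g * η₂ ^ 2) * hJ2

end Level2

/-! ### From power series relations to Laurent series relations -/

theorem ofNat_eq_C (n : ℕ) [n.AtLeastTwo] :
    (OfNat.ofNat n : PowerSeries K) = PowerSeries.C (OfNat.ofNat n : K) :=
  (map_ofNat (PowerSeries.C (R := K)) n).symm

theorem lead_neg_one_add (g : PowerSeries K) (c : K) :
    lead (-1) (g + PowerSeries.C c * PowerSeries.X) =
      lead (-1) g + algebraMap K (LaurentSeries K) c := by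
  rw [lead_add, lead_neg_one_C_mul_X]

/-- coefficient extraction for cubic and quartic polynomials in `q` -/
theorem coeff_three_cubic (a b c d : K) :
    PowerSeries.coeff 3 (PowerSeries.C a + PowerSeries.C b * PowerSeries.X +
      PowerSeries.C c * PowerSeries.X ^ 2 + PowerSeries.C d * PowerSeries.X ^ 3 : PowerSeries K)
      = d := by
  simp [PowerSeries.coeff_X_pow]

theorem coeff_four_quartic (a b c d e : K) :
    PowerSeries.coeff 4 (PowerSeries.C a + PowerSeries.C b * PowerSeries.X +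
      PowerSeries.C c * PowerSeries.X ^ 2 + PowerSeries.C d * PowerSeries.X ^ 3 +
      PowerSeries.C e * PowerSeries.X ^ 4 : PowerSeries K) = e := by
  simp [PowerSeries.coeff_X_pow]

section Level2

variable (K)

/-- **Level 2 bridge.**  From the two `ℤ⟦q⟧`-identities of level 2 (package M2) we get, over any
field `K`, a series `g ∈ 1 + q K⟦q⟧` such that `h = q⁻¹ g` satisfies `j h² = (h + 256)³` and
`j(q²) h = (h + 16)³`; moreover `g ≠ 1` as soon as `2 ≠ 0` in `K`. -/
theorem exists_level2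
    (ha : eisenstein4 ^ 3 * deltaPS * vPS 2 deltaPS = (deltaPS + 256 * vPS 2 deltaPS) ^ 3)
    (hb : (vPS 2 eisenstein4) ^ 3 * deltaPS * vPS 2 deltaPS = (deltaPS + 16 * vPS 2 deltaPS) ^ 3) :
    ∃ g : PowerSeries K, PowerSeries.constantCoeff g = 1 ∧ ((2 : K) ≠ 0 → g ≠ 1) ∧
      jqModC K * lead (-1) g ^ 2 = aeval (lead (-1) g) ((X + C (256 : K)) ^ 3 : K[X]) ∧
      qExpand K 2 (jqModC K) * lead (-1) g = aeval (lead (-1) g) ((X + C (16 : K)) ^ 3 : K[X]) := by
  obtain ⟨g, hg0, h1, h2⟩ := exists_level2_ps K ha hb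
  rw [ofNat_eq_C] at h1 h2
  refine ⟨g, hg0, ?_, ?_, ?_⟩
  · intro h2K hg1
    rw [hg1, one_pow, mul_one] at h1
    rw [hg1, mul_one, h1] at h2
    have h3 := congrArg (PowerSeries.coeff 3) h2
    rw [PowerSeries.coeff_expand, if_neg (by decide)] at h3
    have e : (1 + PowerSeries.C (16 : K) * PowerSeries.X) ^ 3 =
        PowerSeries.C 1 + PowerSeries.C 48 * PowerSeries.X + PowerSeries.C 768 * PowerSeries.X ^ 2
          + PowerSeries.C 4096 * PowerSeries.X ^ 3 := by
      simp only [map_ofNat, map_one]; ring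
    rw [e, coeff_three_cubic] at h3
    have h4 : (2 : K) ^ 12 = 0 := by
      rw [show (2 : K) ^ 12 = 4096 by norm_num]; exact h3.symm
    exact h2K (pow_eq_zero_iff (by norm_num) |>.1 h4)
  · rw [jqModC_eq_lead, lead_pow, lead_mul, map_pow, map_add, aeval_X, aeval_C,
      ← lead_neg_one_add, lead_pow, h1]
    norm_num
  · rw [jqModC_eq_lead, qExpand_lead, lead_mul, map_pow, map_add, aeval_X, aeval_C,
      ← lead_neg_one_add, lead_pow, h2]
    norm_num

end Level2

/-! ### Level 3 -/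

/-- Un-squaring in `K⟦q⟧`: two series with constant coefficient `1` and equal squares are equal
(also in characteristic `2`). -/
theorem eq_of_sq_eq_sq {U V : PowerSeries K} (h : U ^ 2 = V ^ 2)
    (hU : PowerSeries.constantCoeff U = 1) (hV : PowerSeries.constantCoeff V = 1) : U = V := by
  rcases sq_eq_sq_iff_eq_or_eq_neg.1 h with h | h
  · exact h
  · have h2 : (2 : K) = 0 := by
      have h3 := congrArg PowerSeries.constantCoeff h
      rw [hU, map_neg, hV] at h3
      linear_combination h3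
    have h4 : (2 : PowerSeries K) = 0 := by
      rw [ofNat_eq_C, h2, map_zero]
    rw [h]
    linear_combination (-V) * h4

theorem red_eta_eq : red K dedekindEtaUnit = (red K etaProd ^ 12) ^ 2 := by
  rw [dedekindEtaUnit, map_pow, ← pow_mul]

theorem constantCoeff_red_etaProd : PowerSeries.constantCoeff (red K etaProd) = 1 := by
  rw [constantCoeff_red, constantCoeff_etaProd, Int.cast_one]

theorem constantCoeff_red_eisenstein4 : PowerSeries.constantCoeff (red K eisenstein4) = 1 := by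
  rw [constantCoeff_red, constantCoeff_eisenstein4, Int.cast_one]

section Level3

variable (K)

/-- Level 3, power series form: with `g = η¹²(q) / η¹²(q³)` one has
`J g³ = (g + 27 q)(g + 243 q)³` and `J(q³) g = (g + 27 q)(g + 3 q)³`, where `j = q⁻¹ J`. -/
theorem exists_level3_ps
    (ha : deltaPS * vPS 3 deltaPS *
        (eisenstein4 ^ 3 - 756 * deltaPS - 19131876 * vPS 3 deltaPS) ^ 2 =
      (deltaPS ^ 2 + 196830 * deltaPS * vPS 3 deltaPS + 387420489 * vPS 3 deltaPS ^ 2) ^ 2)
    (hb : deltaPS * vPS 3 deltaPS *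
        ((vPS 3 eisenstein4) ^ 3 - 36 * deltaPS - 756 * vPS 3 deltaPS) ^ 2 =
      (deltaPS ^ 2 + 270 * deltaPS * vPS 3 deltaPS + 729 * vPS 3 deltaPS ^ 2) ^ 2) :
    ∃ g : PowerSeries K, PowerSeries.constantCoeff g = 1 ∧
      red K jNum * g ^ 3 = (g + 27 * PowerSeries.X) * (g + 243 * PowerSeries.X) ^ 3 ∧
      PowerSeries.expand 3 (NeZero.ne 3) (red K jNum) * g =
        (g + 27 * PowerSeries.X) * (g + 3 * PowerSeries.X) ^ 3 := by
  have hX : (PowerSeries.X : PowerSeries ℤ) ^ 4 ≠ 0 := pow_ne_zero 4 PowerSeries.X_ne_zero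
  -- cancel `q⁴` over `ℤ`
  have ha' : dedekindEtaUnit * vPS 3 dedekindEtaUnit *
      (eisenstein4 ^ 3 - 756 * PowerSeries.X * dedekindEtaUnit
        - 19131876 * PowerSeries.X ^ 3 * vPS 3 dedekindEtaUnit) ^ 2 =
      (dedekindEtaUnit ^ 2 + 196830 * PowerSeries.X ^ 2 * dedekindEtaUnit * vPS 3 dedekindEtaUnit
        + 387420489 * PowerSeries.X ^ 4 * vPS 3 dedekindEtaUnit ^ 2) ^ 2 := by
    apply mul_left_cancel₀ hX
    rw [vPS_deltaPS 3, deltaPS] at ha
    linear_combination ha
  have hb' : dedekindEtaUnit * vPS 3 dedekindEtaUnit *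
      ((vPS 3 eisenstein4) ^ 3 - 36 * PowerSeries.X * dedekindEtaUnit
        - 756 * PowerSeries.X ^ 3 * vPS 3 dedekindEtaUnit) ^ 2 =
      (dedekindEtaUnit ^ 2 + 270 * PowerSeries.X ^ 2 * dedekindEtaUnit * vPS 3 dedekindEtaUnit
        + 729 * PowerSeries.X ^ 4 * vPS 3 dedekindEtaUnit ^ 2) ^ 2 := by
    apply mul_left_cancel₀ hX
    rw [vPS_deltaPS 3, deltaPS] at hb
    linear_combination hb
  -- reduce to `K`
  set E : PowerSeries K := red K etaProd ^ 12 with hE
  set E₃ : PowerSeries K := PowerSeries.expand 3 (NeZero.ne 3) E with hE₃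
  set e4 : PowerSeries K := red K eisenstein4 with he4
  set e4₃ : PowerSeries K := PowerSeries.expand 3 (NeZero.ne 3) e4 with he4₃
  set jn : PowerSeries K := red K jNum with hjn
  have hη : red K dedekindEtaUnit = E ^ 2 := red_eta_eq
  have hη₃ : PowerSeries.expand 3 (NeZero.ne 3) (red K dedekindEtaUnit) = E₃ ^ 2 := by
    rw [hη, map_pow]
  have hE0 : PowerSeries.constantCoeff E = 1 := by
    rw [hE, map_pow, constantCoeff_red_etaProd, one_pow]
  have hE₃0 : PowerSeries.constantCoeff E₃ = 1 := by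
    rw [hE₃, PowerSeries.constantCoeff_expand, hE0]
  have he40 : PowerSeries.constantCoeff e4 = 1 := constantCoeff_red_eisenstein4
  have he4₃0 : PowerSeries.constantCoeff e4₃ = 1 := by
    rw [he4₃, PowerSeries.constantCoeff_expand, he40]
  have hA : (E * E₃ * (e4 ^ 3 - 756 * PowerSeries.X * E ^ 2
        - 19131876 * PowerSeries.X ^ 3 * E₃ ^ 2)) ^ 2 =
      ((E ^ 2) ^ 2 + 196830 * PowerSeries.X ^ 2 * E ^ 2 * E₃ ^ 2
        + 387420489 * PowerSeries.X ^ 4 * (E₃ ^ 2) ^ 2) ^ 2 := by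
    have h := congrArg (red K) ha'
    simp only [map_mul, map_pow, map_add, map_sub, red_vPS, PowerSeries.map_X, map_ofNat, hη] at h
    linear_combination h
  have hB : (E * E₃ * (e4₃ ^ 3 - 36 * PowerSeries.X * E ^ 2
        - 756 * PowerSeries.X ^ 3 * E₃ ^ 2)) ^ 2 =
      ((E ^ 2) ^ 2 + 270 * PowerSeries.X ^ 2 * E ^ 2 * E₃ ^ 2
        + 729 * PowerSeries.X ^ 4 * (E₃ ^ 2) ^ 2) ^ 2 := by
    have h := congrArg (red K) hb'
    simp only [map_mul, map_pow, map_add, map_sub, red_vPS, PowerSeries.map_X, map_ofNat, hη] at h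
    linear_combination h
  -- un-square
  have hA' := eq_of_sq_eq_sq hA (by simp [hE0, hE₃0, he40]) (by simp [hE0, hE₃0])
  have hB' := eq_of_sq_eq_sq hB (by simp [hE0, hE₃0, he4₃0]) (by simp [hE0, hE₃0])
  have hJ : jn * E ^ 2 = e4 ^ 3 := by rw [← hη]; exact red_jNum_mul
  have hJ3 : PowerSeries.expand 3 (NeZero.ne 3) jn * E₃ ^ 2 = e4₃ ^ 3 := by
    rw [← hη₃, ← map_mul, hη, hJ, map_pow]
  have hE₃ne0 : PowerSeries.constantCoeff E₃ ≠ 0 := by rw [hE₃0]; exact one_ne_zero
  have hE₃ne : E₃ ≠ 0 := by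
    intro h0; rw [h0] at hE₃ne0; simp at hE₃ne0
  refine ⟨E * E₃⁻¹, ?_, ?_, ?_⟩
  · rw [map_mul, PowerSeries.constantCoeff_inv, hE₃0, hE0, inv_one, mul_one]
  all_goals
    have hg : E * E₃⁻¹ * E₃ = E := by
      rw [mul_assoc, PowerSeries.inv_mul_cancel _ hE₃ne0, mul_one]
    generalize E * E₃⁻¹ = g at hg ⊢
    apply mul_right_cancel₀ (pow_ne_zero 4 hE₃ne)
    rw [← hg] at hA' hB' hJ
  · linear_combination hA' + (g * E₃ ^ 2) * hJ
  · linear_combination hB' + (g * E₃ ^ 2) * hJ3

/-- **Level 3 bridge.**  From the two `ℤ⟦q⟧`-identities of level 3 (package M2) we get, over any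
field `K`, a series `g ∈ 1 + q K⟦q⟧` such that `h = q⁻¹ g` satisfies
`j h³ = (h + 27)(h + 243)³` and `j(q³) h = (h + 27)(h + 3)³`; moreover `g ≠ 1` as soon as `3 ≠ 0`
in `K`. -/
theorem exists_level3
    (ha : deltaPS * vPS 3 deltaPS *
        (eisenstein4 ^ 3 - 756 * deltaPS - 19131876 * vPS 3 deltaPS) ^ 2 =
      (deltaPS ^ 2 + 196830 * deltaPS * vPS 3 deltaPS + 387420489 * vPS 3 deltaPS ^ 2) ^ 2)
    (hb : deltaPS * vPS 3 deltaPS *
        ((vPS 3 eisenstein4) ^ 3 - 36 * deltaPS - 756 * vPS 3 deltaPS) ^ 2 =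
      (deltaPS ^ 2 + 270 * deltaPS * vPS 3 deltaPS + 729 * vPS 3 deltaPS ^ 2) ^ 2) :
    ∃ g : PowerSeries K, PowerSeries.constantCoeff g = 1 ∧ ((3 : K) ≠ 0 → g ≠ 1) ∧
      jqModC K * lead (-1) g ^ 3 =
        aeval (lead (-1) g) ((X + C (27 : K)) * (X + C (243 : K)) ^ 3 : K[X]) ∧
      qExpand K 3 (jqModC K) * lead (-1) g =
        aeval (lead (-1) g) ((X + C (27 : K)) * (X + C (3 : K)) ^ 3 : K[X]) := by
  obtain ⟨g, hg0, h1, h2⟩ := exists_level3_ps K ha hb
  rw [ofNat_eq_C (K := K) 27, ofNat_eq_C (K := K) 243] at h1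
  rw [ofNat_eq_C (K := K) 27, ofNat_eq_C (K := K) 3] at h2
  refine ⟨g, hg0, ?_, ?_, ?_⟩
  · intro h3K hg1
    rw [hg1, one_pow, mul_one] at h1
    rw [hg1, mul_one, h1] at h2
    have h3 := congrArg (PowerSeries.coeff 4) h2
    rw [PowerSeries.coeff_expand, if_neg (by decide)] at h3
    have e : (1 + PowerSeries.C (27 : K) * PowerSeries.X) *
        (1 + PowerSeries.C (3 : K) * PowerSeries.X) ^ 3 =
        PowerSeries.C 1 + PowerSeries.C 36 * PowerSeries.X + PowerSeries.C 270 * PowerSeries.X ^ 2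
          + PowerSeries.C 756 * PowerSeries.X ^ 3 + PowerSeries.C 729 * PowerSeries.X ^ 4 := by
      simp only [map_ofNat, map_one]; ring
    rw [e, coeff_four_quartic] at h3
    have h4 : (3 : K) ^ 6 = 0 := by
      rw [show (3 : K) ^ 6 = 729 by norm_num]; exact h3.symm
    exact h3K (pow_eq_zero_iff (by norm_num) |>.1 h4)
  · rw [jqModC_eq_lead, lead_pow, lead_mul, map_mul, map_pow, map_add, map_add, aeval_X, aeval_C,
      aeval_C, ← lead_neg_one_add, ← lead_neg_one_add, lead_pow, lead_mul, h1]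
  · rw [jqModC_eq_lead, qExpand_lead, lead_mul, map_mul, map_pow, map_add, map_add, aeval_X,
      aeval_C, aeval_C, ← lead_neg_one_add, ← lead_neg_one_add, lead_pow, lead_mul, h2]
    norm_num

end Level3

end Fermat.Agent.S28.H55
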